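import Fermat.Agent.GAL.Tors.HeckeInput
import Fermat.Agent.DR.Hecke.Defs

/-!
# S41 / Bridge / Char : the character of `Γ₀(N)` attached to a class of `V_m(F(N))`

`chi N m x : Γ₀(N) →* μ_m(ℂ)` : the automorphy character of an `m`-th root (on the upper half plane) of a representative of `x`
(`GAL/Tors` : `bcKV`, `exists_kappa`).

* `chi_injective`, `chi_add`, `chi_zsmul`, `chi_neTrivial`;
* `chi_rel`   : `α^* x + β^* y = 0` ⟹ `χ_x(γ) χ_y(g γ g⁻¹) = 1` for `γ ∈ Γ₀(N q)`, `g = diag(q,1)`;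
* `chi_hecke` : the transfer formula for `T_ℓ`.
-/

set_option autoImplicit false
set_option linter.unusedSectionVars false

noncomputable section

namespace Fermat.Agent.S41.Bridge

open AlgebraicCurve ModularCurve Fermat.Agent.S24 Fermat.Agent.GAL Fermat.Agent.GAL.Tors
  Fermat.Agent.GAL.Hecke
open CongruenceSubgroup Matrix.SpecialLinearGroup
open scoped MatrixGroups
open P2MW.S_ModularForm_heckeT_slash_eq_self_of_mem_Gamma0.ModularForm.HeckeSlashInvariance

variable (N : ℕ) [NeZero N] (m : ℕ) [NeZero m]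

/-- the analytic Kummer isomorphism. -/
def kap : KV ℂ (FF ℂ N) m ≃+ Additive (neChars N m) := (exists_kappa N m).choose

theorem kap_spec (u : kummerUnits ℂ (FF ℂ N) m) :
    HasChar N m (u : (FF ℂ N)ˣ) (Additive.toMul (kap N m (KV.mk u)) : neChars N m).1 :=
  (exists_kappa N m).choose_spec u

theorem finite_KVC : Finite (KV ℂ (FF ℂ N) m) := by
  obtain ⟨c, -, -⟩ := exists_charOf N
  exact Finite.of_equiv _ ((c m).trans (kap N m).symm).toEquiv

/-- the character of a class, as an additive homomorphism. -/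
def chiHom : KV Kbar (FF Kbar N) m →+ Additive (neChars N m) :=
  (kap N m).toAddMonoidHom.comp (bcKV N m)

theorem chiHom_injective : Function.Injective (chiHom N m) :=
  (kap N m).injective.comp (bijective_bcKV N m (finite_KVC N m)).1

/-- the character of a class. -/
def chi (x : KV Kbar (FF Kbar N) m) : Gamma0 N →* rootsOfUnity m ℂ :=
  (Additive.toMul (chiHom N m x) : neChars N m).1

variable {N m}

theorem chi_hasChar (u : kummerUnits Kbar (FF Kbar N) m) :
    HasChar N m (bcUnits N (u : (FF Kbar N)ˣ)) (chi N m (KV.mk u)) :=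
  kap_spec N m ⟨bcUnits N (u : (FF Kbar N)ˣ), bc_mem_kummerUnits N m u u.2⟩

theorem chi_neTrivial (x : KV Kbar (FF Kbar N) m) : NeTrivial (chi N m x) :=
  (Additive.toMul (chiHom N m x) : neChars N m).2

theorem chi_injective {x y : KV Kbar (FF Kbar N) m} (h : chi N m x = chi N m y) : x = y :=
  chiHom_injective N m (Additive.toMul.injective (Subtype.ext h))

theorem chi_add (x y : KV Kbar (FF Kbar N) m) : chi N m (x + y) = chi N m x * chi N m y := by
  unfold chi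
  rw [map_add]
  rfl

theorem chi_zero : chi N m 0 = 1 := by
  unfold chi
  rw [map_zero]
  rfl

theorem chi_nsmul (n : ℕ) (x : KV Kbar (FF Kbar N) m) : chi N m (n • x) = chi N m x ^ n := by
  induction n with
  | zero => rw [zero_smul, pow_zero, chi_zero]
  | succ n ih => rw [succ_nsmul, chi_add, ih, pow_succ]

theorem chi_eq_of_hasChar {u : kummerUnits Kbar (FF Kbar N) m} {χ : Gamma0 N →* rootsOfUnity m ℂ}
    (h : HasChar N m (bcUnits N (u : (FF Kbar N)ˣ)) χ) : chi N m (KV.mk u) = χ :=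
  hasChar_unique (chi_hasChar u) h

/-! ### the transfer formula -/

theorem chi_hecke {ℓ : ℕ} [NeZero ℓ] (hℓ : ℓ.Prime) (hℓN : ¬ ℓ ∣ N) (x : KV Kbar (FF Kbar N) m)
    (γ : Gamma0 N) (D : HeckeDecomp N ℓ γ) :
    chi N m (heckeT Kbar N ℓ m x) γ = ∏ y, chi N m x (D.γ' y) := by
  obtain ⟨c, hB1, -⟩ := exists_charOf N
  obtain ⟨u, rfl⟩ := KV.mk_surjective x
  set x₀ := (c m).symm (chiHom N m (KV.mk u)) with hx₀
  have hc : (Additive.toMul (c m x₀) : neChars N m).1 = chi N m (KV.mk u) := by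
    rw [hx₀, AddEquiv.apply_symm_apply]
    rfl
  have H := heckeInput N
  have h3 : HasChar N m (bcUnits N (Units.map (heckeNorm Kbar N ℓ) (u : (FF Kbar N)ˣ)))
      (Additive.toMul (c m (((Tors.bettiT N ℓ).map (Int.castRingHom (ZMod m))).mulVec x₀)) :
          neChars N m).1 := by
    refine HasChar.heckeK (H.hstarK ℓ hℓ hℓN) (chi_hasChar u) fun γ => ?_
    obtain ⟨D⟩ := nonempty_heckeDecomp N hℓ hℓN γ
    exact ⟨D, by rw [hB1 m ℓ hℓ hℓN x₀ γ D, hc]⟩
  rw [heckeT_mk (H.presK ℓ m hℓ hℓN)]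
  have h4 := chi_eq_of_hasChar (u := ⟨Units.map (heckeNorm Kbar N ℓ) (u : (FF Kbar N)ˣ),
    H.presK ℓ m hℓ hℓN u u.2⟩) h3
  rw [h4, hB1 m ℓ hℓ hℓN x₀ γ D, hc]

/-! ### the two pull-backs -/

theorem PsiMer_bc_alpha (q : ℕ) [NeZero q] (f : FF Kbar N) :
    PsiMer (N * q) (bcHom (N * q) (heckeAlphaBar Kbar N q f)) = PsiMer N (bcHom N f) := by
  rw [PsiMer_eq, PsiMer_eq]
  refine congrArg PsiQ (Subtype.ext ?_)
  show coeffMap iota ((heckeAlphaBar Kbar N q f : FF Kbar (N * q)) : LaurentSeries Kbar) =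
    coeffMap iota (f : LaurentSeries Kbar)
  rw [coe_heckeAlphaBar]

theorem PsiMer_bc_beta (q : ℕ) [NeZero q] (f : FF Kbar N) :
    PsiMer (N * q) (bcHom (N * q) (heckeBetaBar Kbar N q f)) =
      compGL (ModularForm.heckeDiagMatrix q) (ModularForm.det_heckeDiagMatrix_pos q)
        (PsiMer N (bcHom N f)) := by
  rw [PsiMer_eq, PsiMer_eq, ← PsiQ_qExpand]
  refine congrArg PsiQ (Subtype.ext ?_)
  show coeffMap iota ((heckeBetaBar Kbar N q f : FF Kbar (N * q)) : LaurentSeries Kbar) =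
    qExpand ℂ q (coeffMap iota (f : LaurentSeries Kbar))
  rw [coe_heckeBetaBar, coeffMap_qExpand]

/-- **The relation between the characters.** -/
theorem chi_rel (q : ℕ) [NeZero q] (x y : KV Kbar (FF Kbar N) m)
    (h : DR.Hecke.aPull N q m x + DR.Hecke.bPull N q m y = 0) (γ δ : Gamma0 N)
    (hγ : (γ : SL(2, ℤ)) ∈ Gamma0 (N * q))
    (hδ : ModularForm.heckeDiagMatrix q * mapGL ℝ (γ : SL(2, ℤ)) =
      mapGL ℝ (δ : SL(2, ℤ)) * ModularForm.heckeDiagMatrix q) :
    chi N m x γ * chi N m y δ = 1 := by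
  obtain ⟨u, rfl⟩ := KV.mk_surjective x
  obtain ⟨v, rfl⟩ := KV.mk_surjective y
  obtain ⟨hu, hum, huγ⟩ := chi_hasChar u
  obtain ⟨hv, hvm, hvγ⟩ := chi_hasChar v
  have hm0 : m ≠ 0 := NeZero.ne m
  rw [DR.Hecke.aPull_mk, DR.Hecke.bPull_mk, ← KV.mk_mul, KV.mk_eq_zero_iff] at h
  obtain ⟨w, hw⟩ := h
  set g := ModularForm.heckeDiagMatrix q with hg
  have hgpos : 0 < g.det.val := ModularForm.det_heckeDiagMatrix_pos q
  -- the equation in `Mer`
  have hw' : (w : FF Kbar (N * q)) ^ m =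
      heckeAlphaBar Kbar N q ((u : (FF Kbar N)ˣ) : FF Kbar N) *
        heckeBetaBar Kbar N q ((v : (FF Kbar N)ˣ) : FF Kbar N) := by
    have := congrArg (fun z : (FF Kbar (N * q))ˣ => (z : FF Kbar (N * q))) hw
    simpa [DR.Hecke.coe_aUnits, DR.Hecke.coe_bUnits] using this
  set W : Mer := PsiMer (N * q) (bcHom (N * q) (w : FF Kbar (N * q))) with hW
  set H : Mer := hu * compGL g hgpos hv with hH
  have hWH : H ^ m = W ^ m := by
    rw [hH, mul_pow, ← map_pow, hum, hvm, hW, ← map_pow, ← map_pow, hw', map_mul, map_mul,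
      PsiMer_bc_alpha, PsiMer_bc_beta]
    rfl
  have hW0 : W ≠ 0 := by
    rw [hW, Ne, map_eq_zero_iff _ (PsiMer_injective (N * q)),
      map_eq_zero_iff _ (bcHom (N * q)).injective]
    exact w.ne_zero
  obtain ⟨z, hz⟩ := mem_range_algebraMap_of_pow_eq_one (c := H / W) hm0
    (by rw [div_pow, hWH, div_self (pow_ne_zero m hW0)])
  have hHW : H = algebraMap ℂ Mer z * W := by rw [hz, div_mul_cancel₀ _ hW0]
  have hH0 : H ≠ 0 := by
    intro h0
    rw [h0, zero_pow hm0] at hWH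
    exact pow_ne_zero m hW0 hWH.symm
  -- invariance of `H`
  have hinv : compSL (γ : SL(2, ℤ)) H = H := by
    rw [hHW, map_mul, hW]
    have h1 := compSL_PsiMer (N * q) ⟨(γ : SL(2, ℤ)), hγ⟩ (bcHom (N * q) (w : FF Kbar (N * q)))
    rw [h1]
    congr 1
    exact compGL_algebraMap _ _ z
  -- transformation of `H`
  have hpos1 : 0 < (g * mapGL ℝ (γ : SL(2, ℤ))).det.val := by
    rw [map_mul, Units.val_mul]
    exact mul_pos hgpos (det_mapGL_pos _)
  have hpos2 : 0 < (mapGL ℝ (δ : SL(2, ℤ)) * g).det.val := by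
    rw [map_mul, Units.val_mul]
    exact mul_pos (det_mapGL_pos _) hgpos
  have e1 : compSL (γ : SL(2, ℤ)) (compGL g hgpos hv) = compGL (g * mapGL ℝ (γ : SL(2, ℤ))) hpos1 hv :=
    compGL_compGL _ _ _ _ hpos1 hv
  have e2 : compGL g hgpos (compSL (δ : SL(2, ℤ)) hv) = compGL (mapGL ℝ (δ : SL(2, ℤ)) * g) hpos2 hv :=
    compGL_compGL _ _ _ _ hpos2 hv
  have htr : compSL (γ : SL(2, ℤ)) H =
      algebraMap ℂ Mer ((((chi N m (KV.mk u) γ : rootsOfUnity m ℂ) : ℂˣ) : ℂ) *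
        (((chi N m (KV.mk v) δ : rootsOfUnity m ℂ) : ℂˣ) : ℂ)) * H := by
    rw [hH, map_mul, huγ γ, e1, compGL_congr hδ hpos1 hpos2, ← e2, hvγ δ, map_mul, compGL_algebraMap,
      map_mul]
    ring
  rw [hinv] at htr
  have h5 : algebraMap ℂ Mer ((((chi N m (KV.mk u) γ : rootsOfUnity m ℂ) : ℂˣ) : ℂ) *
        (((chi N m (KV.mk v) δ : rootsOfUnity m ℂ) : ℂˣ) : ℂ)) = 1 := by
    have : (algebraMap ℂ Mer ((((chi N m (KV.mk u) γ : rootsOfUnity m ℂ) : ℂˣ) : ℂ) *
        (((chi N m (KV.mk v) δ : rootsOfUnity m ℂ) : ℂˣ) : ℂ)) - 1) * H = 0 := by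
      rw [sub_mul, one_mul, ← htr, sub_self]
    exact sub_eq_zero.1 ((mul_eq_zero.1 this).resolve_right hH0)
  have h6 := (algebraMap ℂ Mer).injective (h5.trans (map_one _).symm)
  apply Subtype.ext
  apply Units.ext
  simpa using h6

end Fermat.Agent.S41.Bridge
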