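import Fermat.Agent.S41.Bridge.Char
import Fermat.Agent.S41.CSP.Main

/-!
# S41 / Bridge / Group : from the relation between the characters to `CSP-lite`

`χ ψ : Γ₀(N) →* μ_p(ℂ)` with `χ(γ) ψ(g γ g⁻¹) = 1 = ψ(γ) χ(g γ g⁻¹)` for `γ ∈ Γ₀(N q)`, `g = diag(q,1)`, `χ` trivial on parabolic
elements.  Then `χ` is trivial on `Γ₁(N)`.
-/

set_option autoImplicit false
set_option linter.unusedSectionVars false

noncomputable section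

namespace Fermat.Agent.S41.Bridge

open Fermat.Agent.GAL.Tors Fermat.Agent.S41.CSP
open CongruenceSubgroup Matrix.SpecialLinearGroup
open scoped MatrixGroups

/-- `δ = g γ g⁻¹`, `g = diag(q,1)`. -/
def Conj (q : ℕ) (γ δ : SL(2, ℤ)) : Prop :=
  δ 0 0 = γ 0 0 ∧ δ 1 1 = γ 1 1 ∧ δ 0 1 = (q : ℤ) * γ 0 1 ∧ γ 1 0 = (q : ℤ) * δ 1 0

theorem Conj.mapGL {q : ℕ} (hq : q ≠ 0) {γ δ : SL(2, ℤ)} (h : Conj q γ δ) :
    ModularForm.heckeDiagMatrix q * mapGL ℝ γ = mapGL ℝ δ * ModularForm.heckeDiagMatrix q := by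
  obtain ⟨h00, h11, h01, h10⟩ := h
  apply Units.ext
  rw [Units.val_mul, Units.val_mul, ModularForm.val_heckeDiagMatrix hq]
  ext i j
  fin_cases i <;> fin_cases j <;>
    simp [Matrix.mul_apply, Fin.sum_univ_two, h00, h11, h01, h10, mul_comm]

/-- the logarithm `μ_p(ℂ) ≃ ℤ/p`. -/
def logZ (p : ℕ) [NeZero p] : Additive (rootsOfUnity p ℂ) ≃+ ZMod p :=
  (AddEquiv.ofBijective (zetaHom p) (zetaHom_bijective p)).symm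

variable {N : ℕ} [NeZero N] {p q : ℕ} [Fact p.Prime]

open Classical in
/-- the additive function attached to a character. -/
def PhiOf (χ : Gamma0 N →* rootsOfUnity p ℂ) (γ : SL(2, ℤ)) : ZMod p :=
  if h : γ ∈ Gamma0 N then logZ p (Additive.ofMul (χ ⟨γ, h⟩)) else 0

theorem PhiOf_of_mem (χ : Gamma0 N →* rootsOfUnity p ℂ) {γ : SL(2, ℤ)} (h : γ ∈ Gamma0 N) :
    PhiOf χ γ = logZ p (Additive.ofMul (χ ⟨γ, h⟩)) := dif_pos h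

theorem PhiOf_eq_zero_iff (χ : Gamma0 N →* rootsOfUnity p ℂ) {γ : SL(2, ℤ)} (h : γ ∈ Gamma0 N) :
    PhiOf χ γ = 0 ↔ χ ⟨γ, h⟩ = 1 := by
  rw [PhiOf_of_mem χ h, map_eq_zero_iff _ (logZ p).injective]
  rfl

/-- the data of CSP-lite. -/
def phiAx (χ ψ : Gamma0 N →* rootsOfUnity p ℂ) (hχ : NeTrivial χ)
    (h1 : ∀ γ δ : Gamma0 N, (γ : SL(2, ℤ)) ∈ Gamma0 (N * q) → Conj q γ δ → χ γ * ψ δ = 1)
    (h2 : ∀ γ δ : Gamma0 N, (γ : SL(2, ℤ)) ∈ Gamma0 (N * q) → Conj q γ δ → ψ γ * χ δ = 1) :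
    PhiAx (ZMod p) N q where
  Φ := PhiOf χ
  mul := by
    intro γ δ hγ hδ
    rw [PhiOf_of_mem χ hγ, PhiOf_of_mem χ hδ, PhiOf_of_mem χ (mul_mem hγ hδ), ← map_add, ← ofMul_mul,
      ← map_mul]
    rfl
  hu := by
    rw [PhiOf_eq_zero_iff χ (uMat_mem 1)]
    apply hχ
    simp [uMat, mk2, Matrix.trace_fin_two]
  hl := by
    rw [PhiOf_eq_zero_iff χ (lMat_mem (dvd_refl _))]
    apply hχ
    simp [lMat, mk2, Matrix.trace_fin_two]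
  hR := by
    intro γ δ hγ hδ h00 h11 h01 h10
    have hdet := det2 γ
    let ε : SL(2, ℤ) := mk2 (γ 0 0) (q * γ 0 1) (q * δ 1 0) (γ 1 1) (by rw [h10] at hdet; linarith)
    obtain ⟨c, hc⟩ := mem_Gamma0_iff.1 hδ
    have hε : ε ∈ Gamma0 N := mem_Gamma0_iff.2 ⟨q * c, by
      show (q : ℤ) * δ 1 0 = _
      rw [hc]; ring⟩
    have hεq : ε ∈ Gamma0 (N * q) := mem_Gamma0_iff.2 ⟨c, by
      show (q : ℤ) * δ 1 0 = _
      rw [hc]; push_cast; ring⟩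
    have hγq : γ ∈ Gamma0 (N * q) := mem_Gamma0_iff.2 ⟨q * c, by
      rw [h10, hc]; push_cast; ring⟩
    have e1 := h1 ⟨γ, hγ⟩ ⟨ε, hε⟩ hγq ⟨rfl, rfl, rfl, by
      show γ 1 0 = (q : ℤ) * ((q : ℤ) * δ 1 0)
      rw [h10]; ring⟩
    have e2 := h2 ⟨ε, hε⟩ ⟨δ, hδ⟩ hεq ⟨h00, h11, by
      show δ 0 1 = (q : ℤ) * ((q : ℤ) * γ 0 1)
      rw [h01]; ring, rfl⟩
    have e3 : χ ⟨γ, hγ⟩ = χ ⟨δ, hδ⟩ := by
      rw [mul_comm] at e1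
      exact mul_left_cancel (e1.trans e2.symm)
    rw [PhiOf_of_mem χ hγ, PhiOf_of_mem χ hδ, e3]

/-- **`χ` is trivial on `Γ₁(N)`.** -/
theorem eq_one_of_mem_Gamma1 (hp2 : p ≠ 2) (hq : q.Prime) (hqN : ¬ q ∣ N)
    (χ ψ : Gamma0 N →* rootsOfUnity p ℂ) (hχ : NeTrivial χ)
    (h1 : ∀ γ δ : Gamma0 N, (γ : SL(2, ℤ)) ∈ Gamma0 (N * q) → Conj q γ δ → χ γ * ψ δ = 1)
    (h2 : ∀ γ δ : Gamma0 N, (γ : SL(2, ℤ)) ∈ Gamma0 (N * q) → Conj q γ δ → ψ γ * χ δ = 1)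
    (γ : Gamma0 N) (hγ : (γ : SL(2, ℤ)) ∈ Gamma1 N) : χ γ = 1 := by
  have h := csp_lite (phiAx χ ψ hχ h1 h2) (Nat.pos_of_ne_zero (NeZero.ne N)) hq
    ((Nat.Prime.coprime_iff_not_dvd hq).2 hqN) p Fact.out hp2 γ hγ
  exact (PhiOf_eq_zero_iff χ γ.2).1 h

end Fermat.Agent.S41.Bridge
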