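import Fermat.Agent.S41.Bridge.Char

/-!
# S41 / Bridge / Hecke : a class whose character is trivial on `Γ₁(N)` is Eisenstein

If `χ_x` is trivial on `Γ₁(N)` then `T_ℓ x = (ℓ + 1) x` for all primes `ℓ ∤ N` (transfer formula: the lower right entries multiply
modulo `N`).
-/

set_option autoImplicit false
set_option linter.unusedSectionVars false

noncomputable section

namespace Fermat.Agent.S41.Bridge

open AlgebraicCurve ModularCurve Fermat.Agent.S24 Fermat.Agent.GAL Fermat.Agent.GAL.Tors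
  Fermat.Agent.GAL.Hecke
open CongruenceSubgroup Matrix.SpecialLinearGroup
open scoped MatrixGroups
open P2MW.S_ModularForm_heckeT_slash_eq_self_of_mem_Gamma0.ModularForm.HeckeSlashInvariance

variable {N : ℕ} [NeZero N]

/-- the upper right entry of `heckeRep ℓ y`. -/
def repB (ℓ : ℕ) (y : OnePoint (ZMod ℓ)) : ℕ := y.elim 0 (fun j => j.val)

/-- the lower right entry of `heckeRep ℓ y`. -/
def repE (ℓ : ℕ) (y : OnePoint (ZMod ℓ)) : ℕ := y.elim 1 (fun _ => ℓ)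

/-- the upper left entry of `heckeRep ℓ y`. -/
def repA (ℓ : ℕ) (y : OnePoint (ZMod ℓ)) : ℕ := y.elim ℓ (fun _ => 1)

theorem val_heckeRep {ℓ : ℕ} (hℓ : ℓ ≠ 0) (y : OnePoint (ZMod ℓ)) :
    ((heckeRep ℓ y : GL (Fin 2) ℝ) : Matrix (Fin 2) (Fin 2) ℝ) =
      !![(repA ℓ y : ℝ), (repB ℓ y : ℝ); 0, (repE ℓ y : ℝ)] := by
  induction y using OnePoint.rec with
  | infty =>
    rw [heckeRep_infty, ModularForm.val_heckeDiagMatrix hℓ]
    simp [repA, repB, repE]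
  | coe j =>
    rw [heckeRep_coe, ModularForm.val_heckeMatrix hℓ]
    simp [repA, repB, repE]

/-- the lower right entries multiply modulo `N`. -/
theorem repE_mul {ℓ : ℕ} (hℓ : ℓ ≠ 0) (γ : Gamma0 N) (D : HeckeDecomp N ℓ γ) (y : OnePoint (ZMod ℓ)) :
    (repE ℓ y : ZMod N) * Gamma0Map N γ = Gamma0Map N (D.γ' y) * (repE ℓ (D.σ y) : ZMod N) := by
  have h := congrArg (fun g : GL (Fin 2) ℝ => (g : Matrix (Fin 2) (Fin 2) ℝ) 1 1) (D.rel y)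
  simp only [Units.val_mul, val_heckeRep hℓ, Matrix.mul_apply, Fin.sum_univ_two] at h
  have h' : ((repE ℓ y : ℤ) * (γ : SL(2, ℤ)) 1 1 : ℝ) =
      (((D.γ' y : Gamma0 N) : SL(2, ℤ)) 1 0 * (repB ℓ (D.σ y) : ℤ) +
        ((D.γ' y : Gamma0 N) : SL(2, ℤ)) 1 1 * (repE ℓ (D.σ y) : ℤ) : ℝ) := by
    simpa using h
  have h'' : (repE ℓ y : ℤ) * (γ : SL(2, ℤ)) 1 1 =
      ((D.γ' y : Gamma0 N) : SL(2, ℤ)) 1 0 * (repB ℓ (D.σ y) : ℤ) +
        ((D.γ' y : Gamma0 N) : SL(2, ℤ)) 1 1 * (repE ℓ (D.σ y) : ℤ) := by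
    exact_mod_cast h'
  have h3 := congrArg (Int.cast : ℤ → ZMod N) h''
  have h4 : ((((D.γ' y : Gamma0 N) : SL(2, ℤ)) 1 0 : ℤ) : ZMod N) = 0 := Gamma0_mem.1 (D.γ' y).2
  push_cast at h3
  rw [h4, zero_mul, zero_add] at h3
  exact h3

theorem isUnit_repE {ℓ : ℕ} (hℓ : ℓ.Prime) (hℓN : ¬ ℓ ∣ N) (y : OnePoint (ZMod ℓ)) :
    IsUnit (repE ℓ y : ZMod N) := by
  rw [ZMod.isUnit_iff_coprime]
  induction y using OnePoint.rec with
  | infty => exact Nat.coprime_one_left N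
  | coe j => exact (Nat.Prime.coprime_iff_not_dvd hℓ).2 hℓN

theorem prod_Gamma0Map {ℓ : ℕ} [NeZero ℓ] (hℓ : ℓ.Prime) (hℓN : ¬ ℓ ∣ N) (γ : Gamma0 N)
    (D : HeckeDecomp N ℓ γ) : ∏ y, Gamma0Map N (D.γ' y) = Gamma0Map N γ ^ (ℓ + 1) := by
  have h1 : ∏ y, ((repE ℓ y : ZMod N) * Gamma0Map N γ) =
      ∏ y, (Gamma0Map N (D.γ' y) * (repE ℓ (D.σ y) : ZMod N)) :=
    Finset.prod_congr rfl fun y _ => repE_mul hℓ.ne_zero γ D y
  rw [Finset.prod_mul_distrib, Finset.prod_mul_distrib,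
    Equiv.prod_comp D.σ (fun y => (repE ℓ y : ZMod N)), Finset.prod_const, mul_comm] at h1
  have hu : IsUnit (∏ y, (repE ℓ y : ZMod N)) := by
    rw [IsUnit.prod_iff]
    exact fun y _ => isUnit_repE hℓ hℓN y
  have hcard : (Finset.univ : Finset (OnePoint (ZMod ℓ))).card = ℓ + 1 := by
    rw [Finset.card_univ]
    show Fintype.card (Option (ZMod ℓ)) = ℓ + 1
    rw [Fintype.card_option, ZMod.card]
  rw [hcard] at h1
  exact (hu.mul_right_cancel h1).symm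

variable {A : Type*} [CommGroup A]

theorem eq_of_Gamma0Map_eq (χ : Gamma0 N →* A)
    (hχ : ∀ γ : Gamma0 N, (γ : SL(2, ℤ)) ∈ Gamma1 N → χ γ = 1) {γ γ' : Gamma0 N}
    (h : Gamma0Map N γ = Gamma0Map N γ') : χ γ = χ γ' := by
  have h1 : Gamma0Map N (γ * γ'⁻¹) = 1 := by
    rw [map_mul, h, ← map_mul, mul_inv_cancel, map_one]
  have h2 : γ * γ'⁻¹ ∈ Gamma1' N := h1
  have h3 : ((γ * γ'⁻¹ : Gamma0 N) : SL(2, ℤ)) ∈ Gamma1 N := by
    rw [Gamma1_mem]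
    exact (Gamma1_to_Gamma0_mem _).1 h2
  have h4 := hχ _ h3
  rw [map_mul, map_inv, mul_inv_eq_one] at h4
  exact h4

theorem prod_eq_pow (χ : Gamma0 N →* A)
    (hχ : ∀ γ : Gamma0 N, (γ : SL(2, ℤ)) ∈ Gamma1 N → χ γ = 1) {ℓ : ℕ} [NeZero ℓ] (hℓ : ℓ.Prime)
    (hℓN : ¬ ℓ ∣ N) (γ : Gamma0 N) (D : HeckeDecomp N ℓ γ) :
    ∏ y, χ (D.γ' y) = χ γ ^ (ℓ + 1) := by
  set P : Gamma0 N := ((Finset.univ : Finset (OnePoint (ZMod ℓ))).toList.map D.γ').prod with hP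
  have h1 : χ P = ∏ y, χ (D.γ' y) := by
    rw [hP, map_list_prod, List.map_map]
    exact Finset.prod_map_toList _ _
  have h2 : Gamma0Map N P = ∏ y, Gamma0Map N (D.γ' y) := by
    rw [hP, map_list_prod, List.map_map]
    exact Finset.prod_map_toList _ _
  rw [← h1, ← map_pow]
  apply eq_of_Gamma0Map_eq χ hχ
  rw [h2, prod_Gamma0Map hℓ hℓN γ D, map_pow]

/-- **A class whose character is trivial on `Γ₁(N)` is Eisenstein.** -/
theorem heckeT_eq_of_trivial {m : ℕ} [NeZero m] (x : KV Kbar (FF Kbar N) m)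
    (hx : ∀ γ : Gamma0 N, (γ : SL(2, ℤ)) ∈ Gamma1 N → chi N m x γ = 1) {ℓ : ℕ} [NeZero ℓ]
    (hℓ : ℓ.Prime) (hℓN : ¬ ℓ ∣ N) : heckeT Kbar N ℓ m x = (ℓ + 1) • x := by
  apply chi_injective
  ext1 γ
  obtain ⟨D⟩ := nonempty_heckeDecomp N hℓ hℓN γ
  rw [chi_hecke hℓ hℓN x γ D, chi_nsmul, MonoidHom.pow_apply, prod_eq_pow _ hx hℓ hℓN γ D]

end Fermat.Agent.S41.Bridge
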