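import Fermat.Agent.S41.Bridge.Group
import Fermat.Agent.S41.Bridge.Hecke
import Fermat.Agent.S41.Contracts
import Fermat.Agent.S41.Input.Ell

/-!
# S41 / Bridge / Main : Ihara's lemma (`S41.IharaC`) from `CSP-lite`

`(x, y) ∈ ker (α^* + β^*)` ⟹ (Atkin-Lehner) `(y, x) ∈ ker` ⟹ the characters `χ_x`, `χ_y` of `Γ₀(N)` satisfy the hypotheses of `CSP-lite`
⟹ they are trivial on `Γ₁(N)` ⟹ `T_ℓ x = (ℓ + 1) x` for all `ℓ ∤ N` ⟹ (`x` in the `θ`-eigenspace, `E[p]` irreducible, hence not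
Eisenstein) `x = 0`.
-/

set_option autoImplicit false
set_option linter.unusedSectionVars false
set_option linter.style.haveILetI false

noncomputable section

namespace Fermat.Agent.S41.Bridge

open AlgebraicCurve ModularCurve Fermat.Agent.S24 Fermat.Agent.GAL Fermat.Agent.GAL.Tors
  Fermat.Agent.GAL.Hecke Fermat.Agent.MR.Glue
open CongruenceSubgroup Matrix.SpecialLinearGroup
open scoped MatrixGroups

variable {N : ℕ} [NeZero N] {p q : ℕ} [NeZero q]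

/-- both characters are trivial on `Γ₁(N)`. -/
theorem chi_trivial (hp : p.Prime) (hp2 : p ≠ 2) (hq : q.Prime) (hqN : ¬ q ∣ N)
    (x y : KV Kbar (FN N) p) (h : DR.Hecke.aPull N q p x + DR.Hecke.bPull N q p y = 0)
    (h' : DR.Hecke.aPull N q p y + DR.Hecke.bPull N q p x = 0)
    (γ : Gamma0 N) (hγ : (γ : SL(2, ℤ)) ∈ Gamma1 N) :
    haveI : NeZero p := ⟨hp.ne_zero⟩
    chi N p x γ = 1 := by
  haveI : NeZero p := ⟨hp.ne_zero⟩
  haveI : Fact p.Prime := ⟨hp⟩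
  exact eq_one_of_mem_Gamma1 hp2 hq hqN (chi N p x) (chi N p y) (chi_neTrivial x)
    (fun γ δ hγ hδ => chi_rel q x y h γ δ hγ (hδ.mapGL hq.ne_zero))
    (fun γ δ hγ hδ => chi_rel q y x h' γ δ hγ (hδ.mapGL hq.ne_zero)) γ hγ

/-- the kernel of `α^* + β^*` is Eisenstein. -/
theorem heckeT_eq_of_ker (hp : p.Prime) (hp2 : p ≠ 2) (hq : q.Prime) (hqN : ¬ q ∣ N)
    (x y : KV Kbar (FN N) p) (h : DR.Hecke.aPull N q p x + DR.Hecke.bPull N q p y = 0)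
    {ℓ : ℕ} [NeZero ℓ] (hℓ : ℓ.Prime) (hℓN : ¬ ℓ ∣ N) :
    heckeT Kbar N ℓ p x = (ℓ + 1) • x ∧ heckeT Kbar N ℓ p y = (ℓ + 1) • y := by
  haveI : NeZero p := ⟨hp.ne_zero⟩
  have h' : DR.Hecke.aPull N q p y + DR.Hecke.bPull N q p x = 0 := by
    have := congrArg (DR.Hecke.wKV N q hq hqN p) h
    rw [map_add, DR.Hecke.wKV_aPull, DR.Hecke.wKV_bPull, map_zero, add_comm] at this
    exact this
  exact ⟨heckeT_eq_of_trivial x (chi_trivial hp hp2 hq hqN x y h h') hℓ hℓN,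
    heckeT_eq_of_trivial y (chi_trivial hp hp2 hq hqN y x h' h) hℓ hℓN⟩

theorem dvd_of_zsmul_eq_zero {X : Type*} [AddCommGroup X] (hp : p.Prime) {x : X} (hx : x ≠ 0)
    (hpx : p • x = 0) {n : ℤ} (hn : n • x = 0) : (p : ℤ) ∣ n := by
  by_contra hnd
  have hcop : IsCoprime (p : ℤ) n :=
    (Prime.coprime_iff_not_dvd (Nat.prime_iff_prime_int.1 hp)).2 hnd
  obtain ⟨a, b, hab⟩ := hcop
  apply hx
  have : (a * p + b * n) • x = 0 := by
    rw [add_zsmul, mul_zsmul, mul_zsmul, hn, natCast_zsmul, hpx, smul_zero, smul_zero, add_zero]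
  rwa [hab, one_zsmul] at this

/-- **Ihara's lemma.** -/
theorem iharaC : IharaC := by
  intro E _ W hW p N q' _ _ hp hp2 hq' hq'N hq'p hirr
  haveI : Fact p.Prime := ⟨hp⟩
  have hE : E.Δ ≠ 0 := E.isUnit_Δ.ne_zero
  -- a prime at which `E` is not Eisenstein
  obtain ⟨S, hS⟩ := Input.frobMod_Ep E hE hp.pos W hW
  have hWΔ : W.Δ ≠ 0 := Lib.Ell.model_disc_ne_zero E hE W hW
  set B : Finset ℕ := S ∪ (W.Δ.natAbs.primeFactors ∪ (N * q' * p).primeFactors) with hB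
  have hS' : FrobMod p (fun ℓ => W.apOfModel ℓ) B (Input.Ep E p) :=
    ⟨hS.tors, hS.cont, fun ℓ hℓ hℓB => hS.frob ℓ hℓ fun hm => hℓB (Finset.mem_union_left _ hm)⟩
  obtain ⟨ℓ, hℓ, hℓB, hnd⟩ := exists_prime_not_eisenstein
    Fermat.Agent.Lib.FrobDensity.gal_frobeniusDensity hp2 hS' (Input.irr_Ep E hirr)
    (Input.dim_Ep E hE hp)
  haveI : NeZero ℓ := ⟨hℓ.ne_zero⟩
  rw [hB, Finset.mem_union, Finset.mem_union, not_or, not_or] at hℓB
  have hN0 : N * q' * p ≠ 0 := mul_ne_zero (mul_ne_zero (NeZero.ne N) hq'.ne_zero) hp.ne_zero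
  have hℓ1 : ¬ ℓ ∣ N * q' * p := fun h => hℓB.2.2 (Nat.mem_primeFactors.2 ⟨hℓ, h, hN0⟩)
  have hℓ2 : W.IsGoodPrimeFor ℓ := by
    intro h
    apply hℓB.2.1
    rw [Nat.mem_primeFactors]
    exact ⟨hℓ, Int.natCast_dvd.1 h, Int.natAbs_ne_zero.2 hWΔ⟩
  have hPr : Pr W (N * q') p ℓ :=
    ⟨hℓ, hℓ2, fun h => hℓ1 (h.mul_right p), fun h => hℓ1 (h ▸ dvd_mul_left _ _)⟩
  have hℓN : ¬ ℓ ∣ N := fun h => hℓ1 ((h.mul_right q').mul_right p)
  have key : ∀ z : KV Kbar (FN N) p, z ∈ Eig W N (N * q') p →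
      heckeT Kbar N ℓ p z = (ℓ + 1) • z → z = 0 := by
    intro z hz hT
    by_contra hz0
    apply hnd
    have h1 := hz ℓ hPr
    rw [heckeTtot_eq, hT] at h1
    apply dvd_of_zsmul_eq_zero hp hz0 (KV.nsmul_eq_zero z)
    rw [sub_zsmul, sub_zsmul, ← h1, one_zsmul, natCast_zsmul, add_smul, one_smul]
    abel
  intro x hx y hy hxy
  obtain ⟨h1, h2⟩ := heckeT_eq_of_ker hp hp2 hq' hq'N x y hxy hℓ hℓN
  exact ⟨key x hx h1, key y hy h2⟩

end Fermat.Agent.S41.Bridge
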