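import Fermat.Agent.S41.CSP.Main

/-!
# S41 / Bridge : group theory between `CSP.csp_lite` and characters of `Γ₀(N)`

`Conj l γ δ` : `δ = g γ g⁻¹`, `g = diag(l,1)`.
`Rel N l χ ψ` : `χ(γ) ψ(g γ g⁻¹) = 1` (the relation coming from `α^* x + β^* y = 0`).
`Rel.swap` (Atkin-Lehner), `Rel.hR` (relation (R) of CSP-lite), `Rel.trivial_on_Gamma1`.
-/

set_option autoImplicit false

namespace Fermat.Agent.S41.Bridge

open Matrix CongruenceSubgroup Fermat.Agent.S41.CSP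
open scoped MatrixGroups

/-- `δ = g γ g⁻¹`, `g = diag(l,1)`. -/
def Conj (l : ℤ) (γ δ : SL(2, ℤ)) : Prop :=
  δ 0 0 = γ 0 0 ∧ δ 1 1 = γ 1 1 ∧ δ 0 1 = l * γ 0 1 ∧ γ 1 0 = l * δ 1 0

/-- `χ(γ) ψ(g γ g⁻¹) = 1`. -/
def Rel {A : Type*} [CommGroup A] (N : ℕ) (l : ℤ) (χ ψ : Gamma0 N →* A) : Prop :=
  ∀ γ δ : Gamma0 N, Conj l (γ : SL(2, ℤ)) (δ : SL(2, ℤ)) → χ γ * ψ δ = 1

theorem sl_mul_apply (x y : SL(2, ℤ)) (i j : Fin 2) :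
    (x * y) i j = x i 0 * y 0 j + x i 1 * y 1 j := by
  rw [Matrix.SpecialLinearGroup.coe_mul, Matrix.mul_apply, Fin.sum_univ_two]

theorem sl_inv_00 (x : SL(2, ℤ)) : x⁻¹ 0 0 = x 1 1 := by
  rw [Matrix.SpecialLinearGroup.coe_inv, Matrix.adjugate_fin_two]; rfl

theorem sl_inv_01 (x : SL(2, ℤ)) : x⁻¹ 0 1 = - x 0 1 := by
  rw [Matrix.SpecialLinearGroup.coe_inv, Matrix.adjugate_fin_two]; rfl

theorem sl_inv_10 (x : SL(2, ℤ)) : x⁻¹ 1 0 = - x 1 0 := by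
  rw [Matrix.SpecialLinearGroup.coe_inv, Matrix.adjugate_fin_two]; rfl

theorem sl_inv_11 (x : SL(2, ℤ)) : x⁻¹ 1 1 = x 0 0 := by
  rw [Matrix.SpecialLinearGroup.coe_inv, Matrix.adjugate_fin_two]; rfl

theorem mul_inv_00 (x y : SL(2, ℤ)) : (x * y * x⁻¹) 0 0 =
    (x 0 0 * y 0 0 + x 0 1 * y 1 0) * x 1 1 - (x 0 0 * y 0 1 + x 0 1 * y 1 1) * x 1 0 := by
  rw [sl_mul_apply, sl_mul_apply, sl_mul_apply, sl_inv_00, sl_inv_10]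
  ring

theorem mul_inv_01 (x y : SL(2, ℤ)) : (x * y * x⁻¹) 0 1 =
    - (x 0 0 * y 0 0 + x 0 1 * y 1 0) * x 0 1 + (x 0 0 * y 0 1 + x 0 1 * y 1 1) * x 0 0 := by
  rw [sl_mul_apply, sl_mul_apply, sl_mul_apply, sl_inv_01, sl_inv_11]
  ring

theorem mul_inv_10 (x y : SL(2, ℤ)) : (x * y * x⁻¹) 1 0 =
    (x 1 0 * y 0 0 + x 1 1 * y 1 0) * x 1 1 - (x 1 0 * y 0 1 + x 1 1 * y 1 1) * x 1 0 := by
  rw [sl_mul_apply, sl_mul_apply, sl_mul_apply, sl_inv_00, sl_inv_10]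
  ring

theorem mul_inv_11 (x y : SL(2, ℤ)) : (x * y * x⁻¹) 1 1 =
    - (x 1 0 * y 0 0 + x 1 1 * y 1 0) * x 0 1 + (x 1 0 * y 0 1 + x 1 1 * y 1 1) * x 0 0 := by
  rw [sl_mul_apply, sl_mul_apply, sl_mul_apply, sl_inv_01, sl_inv_11]
  ring

theorem mk2_mem {N : ℕ} {a b c d : ℤ} (h : a * d - b * c = 1) (hc : (N : ℤ) ∣ c) :
    mk2 a b c d h ∈ Gamma0 N := by
  rw [mem_Gamma0_iff]; exact hc

/-- **Atkin-Lehner**: the relation is symmetric. -/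
theorem Rel.swap {A : Type*} [CommGroup A] {N l : ℕ} (hl : Nat.Coprime l N)
    {χ ψ : Gamma0 N →* A} (h : Rel N l χ ψ) : Rel N l ψ χ := by
  intro γ δ hc
  obtain ⟨h00, h11, h01, h10⟩ := hc
  obtain ⟨u, v, huv⟩ : IsCoprime (l : ℤ) (N : ℤ) := Nat.isCoprime_iff_coprime.mpr hl
  -- `γ₁ = [[u, -v],[N, l]]`, `γ₂ = [[l u, -v],[N, 1]]`
  let γ₁ : Gamma0 N := ⟨mk2 u (-v) N l (by linarith), mk2_mem _ dvd_rfl⟩
  let γ₂ : Gamma0 N := ⟨mk2 (l * u) (-v) N 1 (by linarith), mk2_mem _ dvd_rfl⟩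
  have key : Conj l ((γ₁ * δ * γ₁⁻¹ : Gamma0 N) : SL(2, ℤ)) ((γ₂ * γ * γ₂⁻¹ : Gamma0 N) : SL(2, ℤ)) := by
    have e1 : ((γ₁ * δ * γ₁⁻¹ : Gamma0 N) : SL(2, ℤ))
        = (γ₁ : SL(2, ℤ)) * (δ : SL(2, ℤ)) * (γ₁ : SL(2, ℤ))⁻¹ := rfl
    have e2 : ((γ₂ * γ * γ₂⁻¹ : Gamma0 N) : SL(2, ℤ))
        = (γ₂ : SL(2, ℤ)) * (γ : SL(2, ℤ)) * (γ₂ : SL(2, ℤ))⁻¹ := rfl
    rw [e1, e2]
    refine ⟨?_, ?_, ?_, ?_⟩
    · rw [mul_inv_00, mul_inv_00]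
      simp only [γ₁, γ₂, mk2_00, mk2_01, mk2_10, mk2_11]
      rw [h00, h11, h01, h10]; ring
    · rw [mul_inv_11, mul_inv_11]
      simp only [γ₁, γ₂, mk2_00, mk2_01, mk2_10, mk2_11]
      rw [h00, h11, h01, h10]; ring
    · rw [mul_inv_01, mul_inv_01]
      simp only [γ₁, γ₂, mk2_00, mk2_01, mk2_10, mk2_11]
      rw [h00, h11, h01, h10]; ring
    · rw [mul_inv_10, mul_inv_10]
      simp only [γ₁, γ₂, mk2_00, mk2_01, mk2_10, mk2_11]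
      rw [h00, h11, h01, h10]; ring
  have h1 := h _ _ key
  rw [map_mul, map_mul, map_inv, map_mul, map_mul, map_inv, mul_comm (χ γ₁), mul_inv_cancel_right,
    mul_comm (ψ γ₂), mul_inv_cancel_right] at h1
  rw [mul_comm]; exact h1

/-- relation (R) of CSP-lite. -/
theorem Rel.hR {A : Type*} [CommGroup A] {N : ℕ} {l : ℤ} {χ ψ : Gamma0 N →* A}
    (h : Rel N l χ ψ) (h' : Rel N l ψ χ) (γ δ : Gamma0 N)
    (h00 : (δ : SL(2, ℤ)) 0 0 = (γ : SL(2, ℤ)) 0 0) (h11 : (δ : SL(2, ℤ)) 1 1 = (γ : SL(2, ℤ)) 1 1)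
    (h01 : (δ : SL(2, ℤ)) 0 1 = l ^ 2 * (γ : SL(2, ℤ)) 0 1)
    (h10 : (γ : SL(2, ℤ)) 1 0 = l ^ 2 * (δ : SL(2, ℤ)) 1 0) : χ γ = χ δ := by
  have hdet := det2 (γ : SL(2, ℤ))
  let μ : Gamma0 N := ⟨mk2 ((γ : SL(2, ℤ)) 0 0) (l * (γ : SL(2, ℤ)) 0 1) (l * (δ : SL(2, ℤ)) 1 0)
    ((γ : SL(2, ℤ)) 1 1) (by rw [h10] at hdet; linarith),
    mk2_mem _ (Dvd.dvd.mul_left (mem_Gamma0_iff.mp δ.2) _)⟩
  have e1 : χ γ * ψ μ = 1 := h γ μ ⟨rfl, rfl, rfl, by rw [h10]; simp only [μ, mk2_10]; ring⟩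
  have e2 : ψ μ * χ δ = 1 := h' μ δ ⟨h00, h11, by rw [h01]; simp only [μ, mk2_01]; ring, rfl⟩
  calc χ γ = χ γ * (ψ μ * χ δ) := by rw [e2, mul_one]
    _ = χ δ := by rw [← mul_assoc, e1, one_mul]

open Classical in
/-- the datum of CSP-lite attached to a pair of characters in relation. -/
noncomputable def phiAx {A k : Type*} [CommGroup A] [Field k] {N l : ℕ} (L : Additive A →+ k)
    (χ ψ : Gamma0 N →* A) (hu : χ ⟨uMat 1, uMat_mem 1⟩ = 1) (hl : χ ⟨lMat N, lMat_mem dvd_rfl⟩ = 1)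
    (h : Rel N l χ ψ) (h' : Rel N l ψ χ) : PhiAx k N l where
  Φ γ := if hγ : γ ∈ Gamma0 N then L (Additive.ofMul (χ ⟨γ, hγ⟩)) else 0
  mul γ δ hγ hδ := by
    rw [dif_pos hγ, dif_pos hδ, dif_pos (mul_mem hγ hδ), ← map_add, ← ofMul_mul, ← map_mul]
    rfl
  hu := by rw [dif_pos (uMat_mem 1), hu]; exact map_zero L
  hl := by rw [dif_pos (lMat_mem dvd_rfl), hl]; exact map_zero L
  hR γ δ hγ hδ h00 h11 h01 h10 := by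
    rw [dif_pos hγ, dif_pos hδ, Rel.hR h h' ⟨γ, hγ⟩ ⟨δ, hδ⟩ h00 h11 h01 h10]

/-- **CSP-lite for characters.** -/
theorem Rel.trivial_on_Gamma1 {A k : Type*} [CommGroup A] [Field k] {N l : ℕ} (hN : 0 < N)
    (hl : l.Prime) (hlN : Nat.Coprime l N) (p : ℕ) [CharP k p] (hp : p.Prime) (hp2 : p ≠ 2)
    (L : Additive A →+ k) (hL : Function.Injective L) {χ ψ : Gamma0 N →* A}
    (hu : χ ⟨uMat 1, uMat_mem 1⟩ = 1) (hlm : χ ⟨lMat N, lMat_mem dvd_rfl⟩ = 1)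
    (h : Rel N l χ ψ) (γ : Gamma0 N) (hγ : (γ : SL(2, ℤ)) ∈ Gamma1 N) : χ γ = 1 := by
  have h1 := csp_lite (phiAx L χ ψ hu hlm h (h.swap hlN)) hN hl hlN p hp hp2 γ hγ
  have h2 : (phiAx L χ ψ hu hlm h (h.swap hlN)).Φ γ = L (Additive.ofMul (χ γ)) := dif_pos γ.2
  rw [h2, ← map_zero L] at h1
  exact Additive.ofMul.injective (hL h1)

/-- a character which is trivial on `Γ₁(N)` only depends on `d mod N`. -/
theorem eq_of_congr {A : Type*} [CommGroup A] {N : ℕ} {χ : Gamma0 N →* A}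
    (h : ∀ γ : Gamma0 N, (γ : SL(2, ℤ)) ∈ Gamma1 N → χ γ = 1) (γ γ' : Gamma0 N)
    (hd : (N : ℤ) ∣ (γ' : SL(2, ℤ)) 1 1 - (γ : SL(2, ℤ)) 1 1) : χ γ' = χ γ := by
  have hx10 : (((γ' : SL(2, ℤ)) 1 0 : ℤ) : ZMod N) = 0 := Gamma0_mem.mp γ'.2
  have hy10 : (((γ : SL(2, ℤ)) 1 0 : ℤ) : ZMod N) = 0 := Gamma0_mem.mp γ.2
  have hd' : (((γ' : SL(2, ℤ)) 1 1 : ℤ) : ZMod N) = (((γ : SL(2, ℤ)) 1 1 : ℤ) : ZMod N) := by
    have := (ZMod.intCast_zmod_eq_zero_iff_dvd _ N).mpr hd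
    push_cast at this
    exact sub_eq_zero.mp this
  have hdx := congrArg (Int.cast : ℤ → ZMod N) (det2 (γ' : SL(2, ℤ)))
  have hdy := congrArg (Int.cast : ℤ → ZMod N) (det2 (γ : SL(2, ℤ)))
  push_cast at hdx hdy
  rw [hx10, mul_zero, sub_zero] at hdx
  rw [hy10, mul_zero, sub_zero] at hdy
  have hmem : ((γ' * γ⁻¹ : Gamma0 N) : SL(2, ℤ)) ∈ Gamma1 N := by
    have e : ((γ' * γ⁻¹ : Gamma0 N) : SL(2, ℤ)) = (γ' : SL(2, ℤ)) * (γ : SL(2, ℤ))⁻¹ := rfl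
    rw [e, Gamma1_mem, sl_mul_apply, sl_mul_apply, sl_mul_apply, sl_inv_00, sl_inv_10, sl_inv_01,
      sl_inv_11]
    push_cast
    rw [hx10, hy10]
    refine ⟨?_, ?_, ?_⟩
    · rw [← hd', hdx]; ring
    · rw [hd', mul_comm (((γ : SL(2, ℤ)) 1 1 : ℤ) : ZMod N), hdy]; ring
    · ring
  have h1 := h _ hmem
  rw [map_mul, map_inv, mul_inv_eq_one] at h1
  exact h1

end Fermat.Agent.S41.Bridge
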