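import Fermat.Agent.GAL.Tors.HeckeInput
import Fermat.Agent.S41.Defs
import Fermat.Agent.S41.Bridge.Mat

/-!
# S41 / Bridge : the characters of `α^* x`, `β^* y` (analytic Kummer theory of GAL/Tors)

`IsChar N m x χ` : the class `x ∈ V_m(F_{ℚ̄}(N))` has transformation character `χ : Γ₀(N) → μ_m`.
`rel_of_ker` : `α^* x + β^* y = 0` at level `N l` gives `χ_x(γ) χ_y(g γ g⁻¹) = 1`.
-/

set_option autoImplicit false

noncomputable section

namespace Fermat.Agent.S41.Bridge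

open CongruenceSubgroup ModularCurve Matrix.SpecialLinearGroup Fermat.Agent.S24 Fermat.Agent.GAL
  Fermat.Agent.GAL.Tors Fermat.Agent.S41.CSP
open scoped MatrixGroups

variable {N l : ℕ} [NeZero N] [NeZero l]

/-- `α` does not change the function on the upper half plane. -/
theorem PsiMer_alpha (f : FF Kbar N) :
    PsiMer (N * l) (bcHom (N * l) (heckeAlphaBar Kbar N l f)) = PsiMer N (bcHom N f) := by
  rw [PsiMer_eq, PsiMer_eq]
  exact congrArg PsiQ (Subtype.ext (by rw [coe_bcHom, coe_bcHom, coe_heckeAlphaBar]))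

/-- `β f (τ) = f (l τ)`. -/
theorem PsiMer_beta (f : FF Kbar N) :
    PsiMer (N * l) (bcHom (N * l) (heckeBetaBar Kbar N l f)) =
      compGL (ModularForm.heckeDiagMatrix l) (ModularForm.det_heckeDiagMatrix_pos l)
        (PsiMer N (bcHom N f)) := by
  rw [PsiMer_eq, PsiMer_eq, ← PsiQ_qExpand]
  refine congrArg PsiQ (Subtype.ext ?_)
  show coeffMap iota (qExpand Kbar l (f : LaurentSeries Kbar))
    = qExpand ℂ l (coeffMap iota (f : LaurentSeries Kbar))
  exact coeffMap_qExpand _ _ _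

theorem diag_mul_of_conj {γ δ : SL(2, ℤ)} (h : Conj l γ δ) :
    ModularForm.heckeDiagMatrix l * mapGL ℝ γ = mapGL ℝ δ * ModularForm.heckeDiagMatrix l := by
  obtain ⟨h00, h11, h01, h10⟩ := h
  apply Units.ext
  rw [Units.val_mul, Units.val_mul, ModularForm.val_heckeDiagMatrix (NeZero.ne l)]
  ext i j
  fin_cases i <;> fin_cases j <;>
    simp [Matrix.mul_apply, Fin.sum_univ_two, h00, h11, h01, h10, mul_comm]

theorem mem_Gamma0_mul_of_conj {γ δ : SL(2, ℤ)} (hδ : δ ∈ Gamma0 N) (h : Conj l γ δ) :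
    γ ∈ Gamma0 (N * l) := by
  rw [mem_Gamma0_iff] at hδ ⊢
  rw [h.2.2.2]
  push_cast
  rw [mul_comm (N : ℤ)]
  exact mul_dvd_mul_left _ hδ

/-- the basic relation, on the level of units. -/
theorem rel_of_eq {m : ℕ} [NeZero m] {u v : (FF Kbar N)ˣ} {w : FF Kbar (N * l)}
    (huvw : heckeAlphaBar Kbar N l (u : FF Kbar N) * heckeBetaBar Kbar N l (v : FF Kbar N) = w ^ m)
    {χ ψ : Gamma0 N →* rootsOfUnity m ℂ} (hχ : HasChar N m (bcUnits N u) χ)
    (hψ : HasChar N m (bcUnits N v) ψ) : Rel N l χ ψ := by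
  intro γ δ hc
  obtain ⟨h, hm, hγ⟩ := hχ
  obtain ⟨k, km, kγ⟩ := hψ
  have hm0 : m ≠ 0 := NeZero.ne m
  set D := compGL (ModularForm.heckeDiagMatrix l) (ModularForm.det_heckeDiagMatrix_pos l) with hD
  set W := PsiMer (N * l) (bcHom (N * l) w) with hW
  have hγ0 : (γ : SL(2, ℤ)) ∈ Gamma0 (N * l) := mem_Gamma0_mul_of_conj δ.2 hc
  have hE : (h * D k) ^ m = W ^ m := by
    have e1 : ((bcUnits N u : (FF ℂ N)ˣ) : FF ℂ N) = bcHom N (u : FF Kbar N) := rfl
    have e2 : ((bcUnits N v : (FF ℂ N)ˣ) : FF ℂ N) = bcHom N (v : FF Kbar N) := rfl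
    rw [mul_pow, hm, ← map_pow, km, e1, e2, ← PsiMer_alpha (l := l), hD, ← PsiMer_beta, ← map_mul,
      ← map_mul, huvw, map_pow, map_pow]
  have hu0 : PsiMer N ((bcUnits N u : (FF ℂ N)ˣ) : FF ℂ N) ≠ 0 := PsiMer_unit_ne_zero _
  have hv0 : PsiMer N ((bcUnits N v : (FF ℂ N)ˣ) : FF ℂ N) ≠ 0 := PsiMer_unit_ne_zero _
  have hh0 : h ≠ 0 := by
    rintro rfl
    rw [zero_pow hm0] at hm
    exact hu0 hm.symm
  have hk0 : k ≠ 0 := by
    rintro rfl
    rw [zero_pow hm0] at km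
    exact hv0 km.symm
  have hE0 : h * D k ≠ 0 := mul_ne_zero hh0 ((map_ne_zero D).mpr hk0)
  have hW0 : W ≠ 0 := by
    intro h0
    rw [h0, zero_pow hm0] at hE
    exact hE0 (pow_eq_zero_iff hm0 |>.mp hE)
  obtain ⟨z, hz⟩ := mem_range_algebraMap_of_pow_eq_one (c := (h * D k) / W) hm0
    (by rw [div_pow, hE, div_self (pow_ne_zero _ hW0)])
  have hE' : h * D k = algebraMap ℂ Mer z * W := by rw [hz, div_mul_cancel₀ _ hW0]
  have e2 : compSL (γ : SL(2, ℤ)) (h * D k) = h * D k := by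
    rw [hE', map_mul, hW, compSL_PsiMer (N * l) ⟨γ, hγ0⟩]
    congr 1
    exact compGL_algebraMap _ _ z
  have e3 : compSL (γ : SL(2, ℤ)) (D k) =
      algebraMap ℂ Mer (((ψ δ : rootsOfUnity m ℂ) : ℂˣ) : ℂ) * D k := by
    have hpos1 : 0 < (ModularForm.heckeDiagMatrix l * mapGL ℝ (γ : SL(2, ℤ))).det.val := by
      rw [map_mul, Units.val_mul]
      exact mul_pos (ModularForm.det_heckeDiagMatrix_pos l) (det_mapGL_pos _)
    have hpos2 : 0 < (mapGL ℝ (δ : SL(2, ℤ)) * ModularForm.heckeDiagMatrix l).det.val := by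
      rw [map_mul, Units.val_mul]
      exact mul_pos (det_mapGL_pos _) (ModularForm.det_heckeDiagMatrix_pos l)
    have a1 : compSL (γ : SL(2, ℤ)) (D k)
        = compGL (ModularForm.heckeDiagMatrix l * mapGL ℝ (γ : SL(2, ℤ))) hpos1 k :=
      compGL_compGL _ _ _ _ hpos1 k
    have a2 : D (compSL (δ : SL(2, ℤ)) k)
        = compGL (mapGL ℝ (δ : SL(2, ℤ)) * ModularForm.heckeDiagMatrix l) hpos2 k :=
      compGL_compGL _ _ _ _ hpos2 k
    rw [a1, compGL_congr (diag_mul_of_conj hc) hpos1 hpos2, ← a2, kγ, map_mul, hD,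
      compGL_algebraMap]
  have e1 : compSL (γ : SL(2, ℤ)) (h * D k) =
      algebraMap ℂ Mer ((((χ γ * ψ δ : rootsOfUnity m ℂ) : rootsOfUnity m ℂ) : ℂˣ) : ℂ) *
        (h * D k) := by
    rw [map_mul, hγ, e3, Subgroup.coe_mul, Units.val_mul, map_mul]
    ring
  rw [e2] at e1
  have e4 : algebraMap ℂ Mer ((((χ γ * ψ δ : rootsOfUnity m ℂ) : rootsOfUnity m ℂ) : ℂˣ) : ℂ)
      = algebraMap ℂ Mer 1 := by
    rw [map_one]
    exact (mul_right_cancel₀ hE0 (by rw [one_mul]; exact e1)).symm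
  have e5 := (algebraMap ℂ Mer).injective e4
  exact Subtype.ext (Units.ext e5)

/-! ### characters of classes -/

/-- the class `x` has transformation character `χ`. -/
def IsChar (N m : ℕ) (x : KV Kbar (FF Kbar N) m) (χ : Gamma0 N →* rootsOfUnity m ℂ) : Prop :=
  ∃ u : kummerUnits Kbar (FF Kbar N) m, KV.mk u = x ∧ HasChar N m (bcUnits N (u : (FF Kbar N)ˣ)) χ

variable {m : ℕ} [NeZero m]

theorem exists_isChar (x : KV Kbar (FF Kbar N) m) :
    ∃ χ : Gamma0 N →* rootsOfUnity m ℂ, IsChar N m x χ ∧ NeTrivial χ := by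
  obtain ⟨u, rfl⟩ := KV.mk_surjective x
  obtain ⟨χ, h1, h2⟩ := exists_hasChar N m (bcUnits N (u : (FF Kbar N)ˣ))
    (bc_mem_kummerUnits N m u u.2)
  exact ⟨χ, ⟨u, rfl, h1⟩, h2⟩

/-- independence of the representative. -/
theorem IsChar.hasChar {x : KV Kbar (FF Kbar N) m} {χ : Gamma0 N →* rootsOfUnity m ℂ}
    (h : IsChar N m x χ) (u : kummerUnits Kbar (FF Kbar N) m) (hu : KV.mk u = x) :
    HasChar N m (bcUnits N (u : (FF Kbar N)ˣ)) χ := by
  obtain ⟨u', hu', h'⟩ := h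
  obtain ⟨y, hy⟩ := (KV.mk_eq_mk_iff u u').mp (hu.trans hu'.symm)
  have h1 := (hasChar_pow N m (bcUnits N y)).mul h'
  rw [one_mul, ← map_pow, ← map_mul, hy] at h1
  exact h1

theorem IsChar.unique {x : KV Kbar (FF Kbar N) m} {χ χ' : Gamma0 N →* rootsOfUnity m ℂ}
    (h : IsChar N m x χ) (h' : IsChar N m x χ') : χ = χ' := by
  obtain ⟨u, hu, h1⟩ := h
  exact hasChar_unique h1 (h'.hasChar u hu)

theorem IsChar.add {x y : KV Kbar (FF Kbar N) m} {χ ψ : Gamma0 N →* rootsOfUnity m ℂ}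
    (hx : IsChar N m x χ) (hy : IsChar N m y ψ) : IsChar N m (x + y) (χ * ψ) := by
  obtain ⟨u, rfl, h1⟩ := hx
  obtain ⟨v, rfl, h2⟩ := hy
  refine ⟨u * v, KV.mk_mul u v, ?_⟩
  have := h1.mul h2
  rwa [← map_mul] at this

theorem isChar_zero : IsChar N m (0 : KV Kbar (FF Kbar N) m) 1 := by
  refine ⟨1, KV.mk_one, ?_⟩
  have := hasChar_pow N m 1
  rw [one_pow] at this
  rwa [OneMemClass.coe_one, map_one]

theorem IsChar.nsmul {x : KV Kbar (FF Kbar N) m} {χ : Gamma0 N →* rootsOfUnity m ℂ}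
    (hx : IsChar N m x χ) (n : ℕ) : IsChar N m (n • x) (χ ^ n) := by
  induction n with
  | zero => rw [zero_smul, pow_zero]; exact isChar_zero
  | succ n ih => rw [succ_nsmul, pow_succ]; exact ih.add hx

theorem finite_KVC (N m : ℕ) [NeZero N] [NeZero m] : Finite (KV ℂ (FF ℂ N) m) := by
  obtain ⟨c, -, -⟩ := exists_charOf N
  obtain ⟨κ, -⟩ := exists_kappa N m
  exact Finite.of_equiv _ ((c m).trans κ.symm).toEquiv

/-- a class with trivial character vanishes. -/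
theorem IsChar.eq_zero {x : KV Kbar (FF Kbar N) m} (h : IsChar N m x 1) : x = 0 := by
  obtain ⟨u, rfl, h1⟩ := h
  obtain ⟨y, hy⟩ := exists_root_of_hasChar_one N m _ h1
  apply (bijective_bcKV N m (finite_KVC N m)).1
  rw [map_zero, bcKV, KV.map_mk, KV.mk_eq_zero_iff]
  exact ⟨y, hy⟩

/-- **the relation between the characters of `x` and `y` when `α^* x + β^* y = 0`.** -/
theorem rel_of_ker {x y : KV Kbar (FF Kbar N) m} {χ ψ : Gamma0 N →* rootsOfUnity m ℂ}
    (hx : IsChar N m x χ) (hy : IsChar N m y ψ)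
    (hker : DR.Hecke.aPull N l m x + DR.Hecke.bPull N l m y = 0) : Rel N l χ ψ := by
  obtain ⟨u, rfl, h1⟩ := hx
  obtain ⟨v, rfl, h2⟩ := hy
  rw [DR.Hecke.aPull_mk, DR.Hecke.bPull_mk, ← KV.mk_mul, KV.mk_eq_zero_iff] at hker
  obtain ⟨w, hw⟩ := hker
  refine rel_of_eq (w := (w : FF Kbar (N * l))) ?_ h1 h2
  have := congrArg (fun z : (FN (N * l))ˣ => (z : FN (N * l))) hw
  exact this.symm

end Fermat.Agent.S41.Bridge
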